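import Fermat.Agent.Mazur.Eleven.CubicIntegers

/-!
# Rational points of `X₁(11)`

Rational points of `y² - y = x³ - x²` (the modular curve `X₁(11)`): the affine ones have
`x ∈ {0, 1}`. Proof: complete 2-descent over the cubic field of discriminant `-44`, followed by
an infinite descent for the naive height.

Main result: `x1_eleven_rational`.
-/

set_option autoImplicit false

noncomputable section

open NumberField

namespace Fermat.Agent.Mazur.Eleven

/-! ## The cubic field: primes and units -/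

lemma not_isSquare_aux {k : ℕ} (hk : ¬ IsSquare k) {n w : ℚ} (hn : n ≠ 0)
    (h : (k : ℚ) * w ^ 2 = n ^ 2) : False := by
  have hw : w ≠ 0 := by
    intro h0; rw [h0] at h; simp at h; exact hn ((pow_eq_zero_iff two_ne_zero).1 h.symm)
  refine hk (Rat.isSquare_natCast_iff.1 ⟨n / w, ?_⟩)
  field_simp
  linear_combination h

lemma isUnit_of_abs_norm_one {z : 𝓞 K11} (h : |oNorm z| = 1) : IsUnit z := isUnit_iff_oNorm.2 h

lemma prime_of_norm {z : 𝓞 K11} {p : ℕ} (hp : p.Prime) (h : |oNorm z| = p) : Prime z := by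
  rw [← UniqueFactorizationMonoid.irreducible_iff_prime]
  refine ⟨fun hu => ?_, fun a b hab => ?_⟩
  · rcases oNorm_isUnit hu with h' | h' <;>
      (rw [h'] at h; norm_num at h; exact hp.ne_one (by exact_mod_cast h.symm))
  · obtain ⟨i, hi⟩ := oNorm_exists_int a
    obtain ⟨j, hj⟩ := oNorm_exists_int b
    rw [hab, map_mul, hi, hj] at h
    have h' : |i * j| = (p : ℤ) := by exact_mod_cast h
    have h'' : i.natAbs * j.natAbs = p := by
      rw [← Int.natAbs_mul]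
      exact_mod_cast (Int.natCast_natAbs (i * j)).trans h'
    rcases Nat.prime_mul_iff.1 (h''.symm ▸ hp) with ⟨-, hj1⟩ | ⟨-, hi1⟩
    · right; apply isUnit_of_abs_norm_one
      rw [hj]; exact_mod_cast (Int.natCast_natAbs j).symm.trans (by rw [hj1]; rfl)
    · left; apply isUnit_of_abs_norm_one
      rw [hi]; exact_mod_cast (Int.natCast_natAbs i).symm.trans (by rw [hi1]; rfl)

lemma oNorm_uO : oNorm uO = -2 := by
  rw [show uO = oel 0 1 0 by simp [oel], oNorm_oel]; simp [nf_eq]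

lemma prime_uO : Prime uO := prime_of_norm Nat.prime_two (by rw [oNorm_uO]; norm_num)

/-- The ramified prime above `11`. -/
def rho : 𝓞 K11 := oel 11 (-14) 5

lemma oNorm_rho : oNorm rho = 11 := by
  rw [rho, oNorm_oel]; simp [nf_eq]

lemma prime_rho : Prime rho :=
  prime_of_norm (p := 11) (by norm_num) (by rw [oNorm_rho]; norm_num)

/-- `3w² - 4` for `w = 2u - u²`. -/
lemma hprime_factor : oel 8 (-6) 0 = uO ^ 4 * rho := by
  rw [rho, show uO ^ 4 = oel 0 1 0 * oel 0 1 0 * (oel 0 1 0 * oel 0 1 0) by simp [oel]; ring]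
  simp only [oel_mul]; norm_num

lemma square_class {δ Q c : 𝓞 K11} (hδ : δ ≠ 0) (hQ : δ * Q = c ^ 2)
    (hcom : ∀ g, g ∣ δ → g ∣ Q → g ∣ uO ^ 4 * rho) :
    ∃ (ε : (𝓞 K11)ˣ) (i j : ℕ) (z : 𝓞 K11), i ≤ 1 ∧ j ≤ 1 ∧
      δ = ε * uO ^ i * rho ^ j * z ^ 2 := by
  classical
  let : GCDMonoid (𝓞 K11) := UniqueFactorizationMonoid.toGCDMonoid (𝓞 K11)
  obtain ⟨a', b', ha, hb, hunit⟩ := extract_gcd δ Q
  set g := gcd δ Q with hg
  have hg0 : g ≠ 0 := fun h => hδ (by rw [ha, h, zero_mul])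
  have hgc : g ∣ c := by
    have : g ^ 2 ∣ c ^ 2 := ⟨a' * b', by rw [← hQ, ha, hb]; ring⟩
    exact (IsIntegrallyClosed.pow_dvd_pow_iff two_ne_zero).1 this
  obtain ⟨c', hc'⟩ := hgc
  have hab : a' * b' = c' ^ 2 := by
    apply mul_left_cancel₀ (pow_ne_zero 2 hg0)
    rw [ha, hb, hc'] at hQ
    linear_combination hQ
  obtain ⟨d, hd⟩ := exists_associated_pow_of_mul_eq_pow hunit hab
  obtain ⟨ε₁, hε₁⟩ := hd
  obtain ⟨g₁, g₂, hg₁, hg₂, hg12⟩ :=
    exists_dvd_and_dvd_of_dvd_mul (hcom g (gcd_dvd_left _ _) (gcd_dvd_right _ _))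
  obtain ⟨i, -, hi⟩ := (dvd_prime_pow prime_uO 4).1 hg₁
  obtain ⟨ε₂, hε₂⟩ := hi.symm
  obtain ⟨j, -, hj⟩ := (dvd_prime_pow prime_rho 1).1 (show g₂ ∣ rho ^ 1 by rw [pow_one]; exact hg₂)
  obtain ⟨ε₃, hε₃⟩ := hj.symm
  refine ⟨ε₁ * ε₂ * ε₃, i % 2, j % 2, uO ^ (i / 2) * rho ^ (j / 2) * d, by omega, by omega, ?_⟩
  have hu2 : uO ^ i = uO ^ (i % 2) * (uO ^ (i / 2)) ^ 2 := by
    rw [← pow_mul, ← pow_add]; congr 1; omega
  have hr2 : rho ^ j = rho ^ (j % 2) * (rho ^ (j / 2)) ^ 2 := by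
    rw [← pow_mul, ← pow_add]; congr 1; omega
  rw [ha, hg12, ← hε₁, ← hε₂, ← hε₃, hu2, hr2, Units.val_mul, Units.val_mul]
  ring

/-- The unit `1 - u`, of norm `1`. -/
def eta : 𝓞 K11 := oel 1 (-1) 0

lemma oel_sq (a b c : ℤ) : oel a b c ^ 2 =
    oel (a * a - 4 * (b * c) - 4 * (c * c)) (2 * (a * b) - 2 * (c * c))
      (2 * (a * c) + b * b + 4 * (b * c) + 4 * (c * c)) := by
  rw [sq, oel_mul]; congr 1 <;> ring

lemma eta_ne_sq (z : 𝓞 K11) : eta ≠ z ^ 2 ∧ eta ≠ -(z ^ 2) := by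
  obtain ⟨a, b, c, rfl⟩ := oel_exists z
  constructor <;> intro h
  · rw [eta, oel_sq] at h
    have := (oel_inj h).2.1
    omega
  · rw [eta, oel_sq, oel_neg] at h
    have := (oel_inj h).2.1
    omega

lemma isUnit_eta : IsUnit eta :=
  isUnit_of_abs_norm_one (by rw [eta, oNorm_oel]; simp [nf_eq])

lemma unit_class (ε : (𝓞 K11)ˣ) (hε : oNorm (ε : 𝓞 K11) = 1) :
    ∃ v : 𝓞 K11, (ε : 𝓞 K11) = v ^ 2 ∨ (ε : 𝓞 K11) = eta * v ^ 2 := by
  -- The units are `± ξ ^ k`, and `η` is an odd power.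
  obtain ⟨ξ, hξ⟩ := exists_generator
  have hnorm_sq : ∀ k : ℤ, Even k → oNorm ((ξ ^ k : (𝓞 K11)ˣ) : 𝓞 K11) = 1 := by
    rintro k ⟨l, rfl⟩
    rw [zpow_add, Units.val_mul, map_mul]
    rcases oNorm_isUnit (ξ ^ l).isUnit with h | h <;> rw [h] <;> norm_num
  have hneg : ∀ x : 𝓞 K11, oNorm (-x) = -oNorm x := by
    intro x
    rw [show -x = ((-1 : ℤ) : 𝓞 K11) * x by push_cast; ring, map_mul, oNorm_int]
    norm_num
  have hne : oNorm eta = 1 := by rw [eta, oNorm_oel]; simp [nf_eq]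
  obtain ⟨e, he⟩ := isUnit_eta
  obtain ⟨j, hj⟩ := hξ e
  have hjodd : Odd j := by
    rw [← Int.not_even_iff_odd]
    rintro ⟨l, rfl⟩
    obtain ⟨h1, h2⟩ := eta_ne_sq ((ξ ^ l : (𝓞 K11)ˣ) : 𝓞 K11)
    rcases hj with hj | hj
    · apply h1; rw [← he, hj, zpow_add, Units.val_mul, sq]
    · apply h2; rw [← he, hj, Units.val_neg, zpow_add, Units.val_mul, sq]
  obtain ⟨k, hk⟩ := hξ ε
  -- The norm one excludes the sign.
  rcases Int.even_or_odd k with hk2 | hk2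
  · rcases hk with hk | hk
    · obtain ⟨l, rfl⟩ := hk2
      exact ⟨((ξ ^ l : (𝓞 K11)ˣ) : 𝓞 K11), Or.inl (by rw [hk, zpow_add, Units.val_mul, sq])⟩
    · rw [hk, Units.val_neg, hneg, hnorm_sq k hk2] at hε
      norm_num at hε
  · obtain ⟨l, hl⟩ : Even (k - j) := hk2.sub_odd hjodd
    have hk' : ξ ^ k = ξ ^ j * (ξ ^ l * ξ ^ l) := by
      rw [← zpow_add, ← zpow_add]; congr 1; omega
    have hsq : ∀ s : 𝓞 K11, oNorm (s * ((ξ ^ l : (𝓞 K11)ˣ) : 𝓞 K11) ^ 2) = oNorm s := by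
      intro s
      rw [map_mul, map_pow]
      rcases oNorm_isUnit (ξ ^ l).isUnit with h | h <;> rw [h] <;> norm_num
    have hcases : (ε : 𝓞 K11) = eta * ((ξ ^ l : (𝓞 K11)ˣ) : 𝓞 K11) ^ 2 ∨
        (ε : 𝓞 K11) = -eta * ((ξ ^ l : (𝓞 K11)ˣ) : 𝓞 K11) ^ 2 := by
      rw [hk'] at hk
      rw [← he]
      rcases hk with hk | hk <;> rcases hj with hj | hj <;> simp [hk, hj] <;>
        first | (left; ring1) | (right; ring1)
    rcases hcases with h | h
    · exact ⟨_, Or.inr h⟩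
    · rw [h, hsq, hneg, hne] at hε
      norm_num at hε

lemma no_eta_class : ∀ a b c e m : ZMod 4,
    (a * a - 4 * (b * c) - 4 * (c * c)) +
        2 * (2 * (a * c) + b * b + 4 * (b * c) + 4 * (c * c)) = e * e →
    (2 * (a * b) - 2 * (c * c)) -
        (a * a - 4 * (b * c) - 4 * (c * c)) = -2 * m →
    (2 * (a * c) + b * b + 4 * (b * c) + 4 * (c * c)) - (2 * (a * b) - 2 * (c * c)) -
        2 * (2 * (a * c) + b * b + 4 * (b * c) + 4 * (c * c)) = m →
    2 * e = 0 ∧ 2 * m = 0 := by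
  decide

/-! ## The `2`-descent -/

/-- Common divisors of `e² - w m` and its cofactor divide `3 w² - 4`. -/
private lemma dvd_of_dvd_delta {w E M g : 𝓞 K11} {m e : ℤ} (hcop : IsCoprime m e)
    (hEdef : E = (e : 𝓞 K11)) (hMdef : M = (m : 𝓞 K11)) (hgδ : g ∣ E ^ 2 - w * M)
    (hgQ : g ∣ E ^ 4 + E ^ 2 * w * M + (w ^ 2 - 4) * M ^ 2) : g ∣ 3 * w ^ 2 - 4 := by
  obtain ⟨r, s, hrs⟩ := (hcop.pow_left (m := 2)).pow_right (n := 4)
  have hcast : (r : 𝓞 K11) * M ^ 2 + (s : 𝓞 K11) * E ^ 4 = 1 := by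
    rw [hEdef, hMdef]; exact_mod_cast congrArg (fun z : ℤ => (z : 𝓞 K11)) hrs
  have h1 : g ∣ (3 * w ^ 2 - 4) * M ^ 2 := by
    have : (3 * w ^ 2 - 4) * M ^ 2 = (E ^ 4 + E ^ 2 * w * M + (w ^ 2 - 4) * M ^ 2) -
        (E ^ 2 - w * M) * (E ^ 2 + 2 * w * M) := by ring
    rw [this]; exact dvd_sub hgQ (hgδ.mul_right _)
  have h2 : g ∣ (3 * w ^ 2 - 4) * E ^ 4 := by
    have : (3 * w ^ 2 - 4) * E ^ 4 = (E ^ 2 - w * M) * ((3 * w ^ 2 - 4) * (E ^ 2 + w * M)) +
        w ^ 2 * ((3 * w ^ 2 - 4) * M ^ 2) := by ring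
    rw [this]; exact dvd_add (hgδ.mul_right _) (h1.mul_left _)
  have : 3 * w ^ 2 - 4 = (r : 𝓞 K11) * ((3 * w ^ 2 - 4) * M ^ 2) +
      (s : 𝓞 K11) * ((3 * w ^ 2 - 4) * E ^ 4) := by
    linear_combination (-(3 * w ^ 2 - 4)) * hcast
  rw [this]; exact dvd_add (h1.mul_left _) (h2.mul_left _)

/-- The class of `η` is not hit: it would make `m` and `e` even. -/
private lemma eta_class_false {a b c m e : ℤ} (hcop : IsCoprime m e)
    (hsq : eta * oel a b c ^ 2 = oel (e ^ 2) (-2 * m) m) : False := by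
  rw [eta, oel_sq, oel_mul] at hsq
  obtain ⟨h1, h2, h3⟩ := oel_inj hsq
  have g1 := congrArg (fun t : ℤ => (t : ZMod 4)) h1
  have g2 := congrArg (fun t : ℤ => (t : ZMod 4)) h2
  have g3 := congrArg (fun t : ℤ => (t : ZMod 4)) h3
  push_cast at g1 g2 g3
  obtain ⟨he, hm⟩ := no_eta_class a b c e m (by linear_combination g1) (by linear_combination g2)
    (by linear_combination g3)
  have even_of : ∀ t : ℤ, (2 : ZMod 4) * t = 0 → (2 : ℤ) ∣ t := by
    intro t ht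
    have : ((2 * t : ℤ) : ZMod 4) = 0 := by push_cast; exact ht
    have := (ZMod.intCast_zmod_eq_zero_iff_dvd _ 4).1 this
    push_cast at this; omega
  have := hcop.isUnit_of_dvd' (even_of m hm) (even_of e he)
  norm_num [Int.isUnit_iff] at this

/-- The 2-descent: a rational point gives a square `4m - 2e²u`. -/
lemma two_descent {m e n : ℤ} (hcop : IsCoprime m e)
    (hn : n ^ 2 = 4 * m ^ 3 - 4 * m ^ 2 * e ^ 2 + e ^ 6) (hn0 : n ≠ 0) :
    ∃ A B C : ℤ, A * A - 4 * (B * C) - 4 * (C * C) = 4 * m ∧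
      2 * (A * B) - 2 * (C * C) = -2 * (e * e) ∧
      2 * (A * C) + B * B + 4 * (B * C) + 4 * (C * C) = 0 := by
  set w : 𝓞 K11 := oel 0 2 (-1) with hwdef
  set δ : 𝓞 K11 := oel (e ^ 2) (-2 * m) m with hδdef
  set E : 𝓞 K11 := (e : 𝓞 K11) with hEdef
  set M : 𝓞 K11 := (m : 𝓞 K11) with hMdef
  have hδ' : δ = E ^ 2 - w * M := by
    simp only [hδdef, hwdef, hEdef, hMdef, oel]; push_cast; ring
  have hw2 : w * w = oel 4 (-2) 0 := by rw [hwdef, oel_mul]; norm_num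
  have hh : 3 * w ^ 2 - 4 = oel 8 (-6) 0 := by
    rw [sq, hw2]; simp only [oel]; push_cast; ring
  have hw3 : w ^ 3 = 4 * w - 4 := by
    rw [pow_succ, sq, hw2, hwdef, oel_mul]; simp only [oel]; push_cast; ring
  set Q : 𝓞 K11 := E ^ 4 + E ^ 2 * w * M + (w ^ 2 - 4) * M ^ 2 with hQdef
  have hδQ : δ * Q = (n : 𝓞 K11) ^ 2 := by
    have hn' : (n : 𝓞 K11) ^ 2 = 4 * M ^ 3 - 4 * M ^ 2 * E ^ 2 + E ^ 6 := by
      rw [hEdef, hMdef]; exact_mod_cast congrArg (fun z : ℤ => (z : 𝓞 K11)) hn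
    rw [hn', hQdef, hδ']
    linear_combination (-(M ^ 3)) * hw3
  have hNδ : oNorm δ = (n : ℚ) ^ 2 := by
    rw [hδdef, oNorm_oel]
    have : nf (e ^ 2) (-2 * m) m = n ^ 2 := by rw [hn]; simp only [nf_eq]; ring
    rw [this]; push_cast; ring
  have hδ0 : δ ≠ 0 := by
    intro h
    rw [h, ← Int.cast_zero, oNorm_int] at hNδ
    have h' : (n : ℚ) ^ 2 = 0 := by rw [← hNδ]; norm_num
    exact hn0 (Int.cast_eq_zero.1 ((pow_eq_zero_iff two_ne_zero).1 h'))
  -- `δ = E² - w M` times `Q` is the square `n²`, so `δ = ε u^i ρ^j z²`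
  obtain ⟨ε, i, j, z, hi, hj, hz⟩ := square_class hδ0 hδQ (fun g hgδ hgQ => by
    rw [← hprime_factor, ← hh]
    exact dvd_of_dvd_delta hcop hEdef hMdef (hδ' ▸ hgδ) (hQdef ▸ hgQ))
  obtain ⟨k, hk⟩ := oNorm_exists_int z
  have hNz := congrArg oNorm hz
  rw [hNδ, map_mul, map_mul, map_mul, map_pow, map_pow, map_pow, oNorm_uO, oNorm_rho, hk] at hNz
  have hnq : (n : ℚ) ≠ 0 := by exact_mod_cast hn0
  -- norms force `i = j = 0` and `N ε = 1`
  have hij : i = 0 ∧ j = 0 ∧ oNorm (ε : 𝓞 K11) = 1 := by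
    have hsq : 0 < (n : ℚ) ^ 2 := by positivity
    interval_cases i <;> interval_cases j <;> rcases oNorm_isUnit ε.isUnit with he | he <;>
      rw [he] at hNz <;> norm_num at hNz
    all_goals first
      | exact ⟨rfl, rfl, he⟩
      | (exfalso; nlinarith)
      | exact absurd (not_isSquare_aux (k := 2) (by decide +kernel) hnq (w := k)
        (by push_cast; linarith)) id
      | exact absurd (not_isSquare_aux (k := 11) (by decide +kernel) hnq (w := k)
        (by push_cast; linarith)) id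
      | exact absurd (not_isSquare_aux (k := 22) (by decide +kernel) hnq (w := k)
        (by push_cast; linarith)) id
  obtain ⟨rfl, rfl, hε⟩ := hij
  -- so `ε` is a square, or `η` times one
  obtain ⟨v, hv | hv⟩ := unit_class ε hε
  · obtain ⟨a, b, c, habc⟩ := oel_exists (uO ^ 2 * (uO - 1) * (v * z))
    have hsq : oel a b c ^ 2 = oel (4 * m) (-2 * (e * e)) 0 := by
      have hp : (uO ^ 2 * (uO - 1)) ^ 2 * δ = oel (4 * m) (-2 * (e * e)) 0 := by
        rw [show uO ^ 2 * (uO - 1) = oel 0 0 1 * oel (-1) 1 0 by simp only [oel]; push_cast; ring,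
          hδdef]
        simp only [sq, oel_mul]; congr 1 <;> ring
      rw [← habc, ← hp, hz, hv]; ring
    rw [oel_sq] at hsq
    obtain ⟨h1, h2, h3⟩ := oel_inj hsq
    exact ⟨a, b, c, h1, h2, h3⟩
  · exfalso
    obtain ⟨a, b, c, habc⟩ := oel_exists (v * z)
    have hsq : eta * oel a b c ^ 2 = oel (e ^ 2) (-2 * m) m := by
      rw [← habc, ← hδdef, hz, hv]; ring
    exact eta_class_false hcop hsq

/-! ## The descent of the height -/

/-- The numerator of the duplication map. -/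
def phiH (a d : ℤ) : ℤ := a ^ 4 - 2 * a * d ^ 3 + d ^ 4

/-- The denominator of the duplication map, divided by `d`. -/
def psiH (a d : ℤ) : ℤ := 4 * a ^ 3 - 4 * a ^ 2 * d + d ^ 3

/-- Naive height. -/
def hgt (q : ℚ) : ℕ := max q.num.natAbs q.den

lemma small_points : ∀ a ∈ Finset.Icc (-6 : ℤ) 6, ∀ d ∈ Finset.Icc (1 : ℤ) 6,
    (∀ s ∈ Finset.Icc (0 : ℤ) 80, s * s ≠ d * psiH a d) ∨ a = 0 ∨ a = d := by
  decide +kernel

/-- A rational point has integral weighted coordinates. -/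
lemma exists_integral_coords {x y : ℚ} (h : y ^ 2 - y = x ^ 3 - x ^ 2) :
    ∃ (e : ℕ) (A B C : ℤ), e ≠ 0 ∧ x.den = e ^ 2 ∧ C ≠ 0 ∧
      A * A - 4 * (B * C) - 4 * (C * C) = 4 * x.num ∧
      2 * (A * B) - 2 * (C * C) = -2 * ((e : ℤ) * e) ∧
      2 * (A * C) + B * B + 4 * (B * C) + 4 * (C * C) = 0 := by
  -- common denominators
  set a := x.num with hadef
  set d := x.den with hddef
  set b := y.num with hbdef
  set k := y.den with hkdef
  have hk0 : (k : ℚ) ≠ 0 := by rw [hkdef]; positivity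
  have hd0 : (d : ℚ) ≠ 0 := by rw [hddef]; positivity
  have heq : b * (b - k) * (d : ℤ) ^ 3 = (k : ℤ) ^ 2 * (a ^ 2 * (a - d)) := by
    have : ((b : ℚ) * (b - k)) * (d : ℚ) ^ 3 = (k : ℚ) ^ 2 * ((a : ℚ) ^ 2 * (a - d)) := by
      rw [← Rat.num_div_den x, ← Rat.num_div_den y] at h
      field_simp at h
      linear_combination h
    exact_mod_cast this
  have hbk : IsCoprime b (k : ℤ) := Int.isCoprime_iff_nat_coprime.2 (by simpa using y.reduced)
  have had : IsCoprime a (d : ℤ) := Int.isCoprime_iff_nat_coprime.2 (by simpa using x.reduced)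
  have hdk : (d : ℤ) ^ 3 = (k : ℤ) ^ 2 := by
    apply Int.dvd_antisymm (by positivity) (by positivity)
    · have hc : IsCoprime ((d : ℤ) ^ 3) (a ^ 2 * (a - d)) := by
        refine IsCoprime.pow_left (IsCoprime.mul_right had.symm.pow_right ?_)
        simpa [sub_eq_add_neg] using (IsCoprime.add_mul_left_right had.symm (-1))
      exact hc.dvd_of_dvd_mul_right ⟨b * (b - k), by linear_combination -heq⟩
    · have hc : IsCoprime ((k : ℤ) ^ 2) (b * (b - k)) := by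
        refine IsCoprime.pow_left (IsCoprime.mul_right hbk.symm ?_)
        simpa [sub_eq_add_neg] using (IsCoprime.add_mul_left_right hbk.symm (-1))
      exact hc.dvd_of_dvd_mul_left ⟨a ^ 2 * (a - d), by linear_combination heq⟩
  have hdk' : d ^ 3 = k ^ 2 := by exact_mod_cast hdk
  obtain ⟨e, he⟩ : d ∣ k := by
    apply (Nat.pow_dvd_pow_iff two_ne_zero).1
    exact ⟨d, by rw [← hdk']; ring⟩
  have hde : d = e ^ 2 := by
    have : d ^ 2 * d = d ^ 2 * e ^ 2 := by rw [← pow_succ, hdk', he]; ring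
    exact Nat.eq_of_mul_eq_mul_left (by positivity) this
  have hke : k = e ^ 3 := by rw [he, hde]; ring
  have he0 : (e : ℤ) ≠ 0 := by
    intro h0
    exact hd0 (by rw [hde]; simp [Int.natCast_eq_zero.1 h0])
  have heq' : b * (b - (e : ℤ) ^ 3) = a ^ 2 * (a - (e : ℤ) ^ 2) := by
    have h6 : ((e : ℤ) ^ 6) ≠ 0 := pow_ne_zero _ he0
    apply mul_left_cancel₀ h6
    have hd' : (d : ℤ) = (e : ℤ) ^ 2 := by exact_mod_cast hde
    have hk' : (k : ℤ) = (e : ℤ) ^ 3 := by exact_mod_cast hke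
    rw [hd', hk'] at heq
    linear_combination heq
  have hae : IsCoprime a (e : ℤ) := by
    have hd' : (d : ℤ) = (e : ℤ) ^ 2 := by exact_mod_cast hde
    rw [hd'] at had
    exact (IsCoprime.pow_right_iff (by norm_num)).1 had
  set n : ℤ := 2 * b - (e : ℤ) ^ 3 with hndef
  have hn : n ^ 2 = 4 * a ^ 3 - 4 * a ^ 2 * (e : ℤ) ^ 2 + (e : ℤ) ^ 6 := by
    rw [hndef]; linear_combination 4 * heq'
  have hn0 : n ≠ 0 := by
    intro h0
    have he2 : (2 : ℤ) ∣ e := Int.prime_two.dvd_of_dvd_pow (n := 3) ⟨b, by linarith⟩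
    obtain ⟨e', he'⟩ := he2
    have ha2 : ¬ (2 : ℤ) ∣ a := fun h2 => by
      have := hae.isUnit_of_dvd' h2 ⟨e', he'⟩
      norm_num [Int.isUnit_iff] at this
    have hb : b = 4 * e' ^ 3 := by
      have h8 : (e : ℤ) ^ 3 = 8 * e' ^ 3 := by rw [he']; ring
      linarith
    have hev : (2 : ℤ) ∣ a ^ 2 * (a - (e : ℤ) ^ 2) :=
      ⟨2 * e' ^ 3 * (b - (e : ℤ) ^ 3), by rw [← heq', hb]; ring⟩
    rcases Int.prime_two.dvd_or_dvd hev with h2 | h2
    · exact ha2 (Int.prime_two.dvd_of_dvd_pow h2)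
    · exact ha2 (by rw [he'] at h2; obtain ⟨t, ht⟩ := h2; exact ⟨t + 2 * e' ^ 2,
        by linarith [show (2 * e') ^ 2 = 4 * e' ^ 2 by ring]⟩)
  obtain ⟨A, B, C, h1, h2, h3⟩ := two_descent hae hn hn0
  have hC : C ≠ 0 := by
    rintro rfl
    have hB : B = 0 := by simpa using h3
    subst hB
    have : (e : ℤ) * e = 0 := by linarith
    exact he0 (mul_self_eq_zero.1 this)
  exact ⟨e, A, B, C, by exact_mod_cast he0, hde, hC, h1, h2, h3⟩

lemma hgt_lt {a C : ℤ} {e : ℕ} {r t : ℤ} {q x : ℚ} (hC : C ≠ 0)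
    (hx : x.num = a) (hde : x.den = e ^ 2) (hrdef : r = q.num) (htdef : t = (q.den : ℤ))
    (p1 : C ^ 2 * phiH r t = a * t ^ 4) (p2 : C ^ 2 * (t * psiH r t) = (e : ℤ) ^ 2 * t ^ 4)
    (hsmall : 5 < hgt q) : hgt q < hgt x := by
  have ht0 : 0 < t := by rw [htdef]; exact_mod_cast q.den_pos
  have hrt : IsCoprime r t := by
    rw [hrdef, htdef]; exact Int.isCoprime_iff_nat_coprime.2 (by simpa using q.reduced)
  set H : ℤ := (hgt q : ℤ) with hHdef
  have hH : |r| ≤ H ∧ |t| ≤ H ∧ (H = |r| ∨ H = |t|) := by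
    rw [hHdef, hrdef, htdef]; unfold hgt
    rw [Nat.cast_max, Int.natCast_natAbs, Nat.abs_cast]
    refine ⟨le_max_left _ _, le_max_right _ _, max_choice _ _⟩
  set G : ℤ := max |a| ((e : ℤ) ^ 2) with hGdef
  have hGx : (hgt x : ℤ) = G := by
    rw [hGdef]; unfold hgt
    rw [Nat.cast_max, Int.natCast_natAbs, hx, hde]; push_cast; rfl
  -- Bezout identities
  have b1 : C ^ 2 * (11 * r ^ 7) = t ^ 4 *
      ((11 * r ^ 3 - 20 * r ^ 2 * t + 4 * r * t ^ 2 + 6 * t ^ 3) * a +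
       (5 * r ^ 3 + 4 * r ^ 2 * t + 8 * r * t ^ 2 - 6 * t ^ 3) * (e : ℤ) ^ 2) := by
    have : C ^ 2 * (11 * r ^ 7) =
        (11 * r ^ 3 - 20 * r ^ 2 * t + 4 * r * t ^ 2 + 6 * t ^ 3) * (C ^ 2 * phiH r t) +
       (5 * r ^ 3 + 4 * r ^ 2 * t + 8 * r * t ^ 2 - 6 * t ^ 3) * (C ^ 2 * (t * psiH r t)) := by
      simp only [phiH, psiH]; ring
    rw [this, p1, p2]; ring
  have b2 : C ^ 2 * (11 * t ^ 7) = t ^ 4 *
      ((48 * r ^ 2 * t - 32 * r * t ^ 2 - 16 * t ^ 3) * a +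
       (-12 * r ^ 3 - 4 * r ^ 2 * t + 27 * t ^ 3) * (e : ℤ) ^ 2) := by
    have : C ^ 2 * (11 * t ^ 7) =
        (48 * r ^ 2 * t - 32 * r * t ^ 2 - 16 * t ^ 3) * (C ^ 2 * phiH r t) +
       (-12 * r ^ 3 - 4 * r ^ 2 * t + 27 * t ^ 3) * (C ^ 2 * (t * psiH r t)) := by
      simp only [phiH, psiH]; ring
    rw [this, p1, p2]; ring
  -- `t⁴ ≤ 11 C²`
  have hdiv : t ^ 4 ∣ 11 * C ^ 2 := by
    have hc : IsCoprime (t ^ 4) (r ^ 7) := hrt.symm.pow
    refine hc.dvd_of_dvd_mul_right ?_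
    rw [show 11 * C ^ 2 * r ^ 7 = C ^ 2 * (11 * r ^ 7) by ring, b1]
    exact dvd_mul_right _ _
  have hle : t ^ 4 ≤ 11 * C ^ 2 := Int.le_of_dvd (by positivity) hdiv
  have bound : ∀ (p : ℤ) (u v : ℤ), |p| = H → |u| ≤ 96 * H ^ 3 → |v| ≤ 43 * H ^ 3 →
      C ^ 2 * (11 * p ^ 7) = t ^ 4 * (u * a + v * (e : ℤ) ^ 2) → (hgt q : ℤ) < hgt x := by
    intro p u v hp hu hv hb
    have hH6 : 6 ≤ H := by omega
    have habs : C ^ 2 * (11 * H ^ 7) = t ^ 4 * |u * a + v * (e : ℤ) ^ 2| := by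
      have h' := congrArg abs hb
      rw [abs_mul, abs_mul, abs_mul, abs_pow p, hp, abs_sq,
        abs_of_pos (pow_pos ht0 4)] at h'
      simpa using h'
    have hsum : |u * a + v * (e : ℤ) ^ 2| ≤ 139 * H ^ 3 * G := by
      refine (abs_add_le _ _).trans ?_
      rw [abs_mul, abs_mul, abs_sq]
      have u1 : |u| * |a| ≤ 96 * H ^ 3 * G :=
        mul_le_mul hu (le_max_left _ _) (abs_nonneg _) (by positivity)
      have u2 : |v| * (e : ℤ) ^ 2 ≤ 43 * H ^ 3 * G :=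
        mul_le_mul hv (le_max_right _ _) (sq_nonneg _) (by positivity)
      linarith
    have hmain : H ^ 4 ≤ 139 * G := by
      have h1 : C ^ 2 * (11 * H ^ 7) ≤ (11 * C ^ 2) * (139 * H ^ 3 * G) := by
        rw [habs]; exact mul_le_mul hle hsum (abs_nonneg _) (by positivity)
      have hpos : 0 < 11 * C ^ 2 * H ^ 3 := by positivity
      exact le_of_mul_le_mul_left (by
        linarith [show 11 * C ^ 2 * H ^ 3 * H ^ 4 = C ^ 2 * (11 * H ^ 7) by ring,
          show 11 * C ^ 2 * H ^ 3 * (139 * G) = (11 * C ^ 2) * (139 * H ^ 3 * G) by ring]) hpos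
    have : 216 * H ≤ H ^ 4 := by
      have : (6 : ℤ) ^ 3 ≤ H ^ 3 := pow_le_pow_left₀ (by norm_num) hH6 3
      nlinarith
    rw [hGx]; linarith
  have hb3 : ∀ i j : ℕ, i + j = 3 → |r ^ i * t ^ j| ≤ H ^ 3 := by
    intro i j hij
    rw [abs_mul, abs_pow, abs_pow, ← hij, pow_add]
    exact mul_le_mul (pow_le_pow_left₀ (abs_nonneg _) hH.1 i)
      (pow_le_pow_left₀ (abs_nonneg _) hH.2.1 j) (by positivity) (by positivity)
  have t0 := abs_le.1 (hb3 3 0 rfl)
  have t1 := abs_le.1 (hb3 2 1 rfl)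
  have t2 := abs_le.1 (hb3 1 2 rfl)
  have t3 := abs_le.1 (hb3 0 3 rfl)
  simp only [pow_zero, pow_one, mul_one, one_mul] at t0 t1 t2 t3
  have hlt : (hgt q : ℤ) < hgt x := by
    rcases hH.2.2 with hh | hh
    · exact bound r _ _ hh.symm (abs_le.2 ⟨by linarith, by linarith⟩)
        (abs_le.2 ⟨by linarith, by linarith⟩) b1
    · exact bound t _ _ hh.symm (abs_le.2 ⟨by linarith, by linarith⟩)
        (abs_le.2 ⟨by linarith, by linarith⟩) b2
  exact_mod_cast hlt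

lemma small_case {C : ℤ} {e : ℕ} {r t : ℤ} (hC : C ≠ 0) (hr : -5 ≤ r ∧ r ≤ 5) (ht0 : 0 < t)
    (ht : t ≤ 5) (p2 : C ^ 2 * (t * psiH r t) = (e : ℤ) ^ 2 * t ^ 4) : r = 0 ∨ r = t := by
  obtain ⟨s, hs0, hs⟩ : ∃ s : ℤ, 0 ≤ s ∧ s * s = t * psiH r t := by
    have hC2 : C ^ 2 ∣ ((e : ℤ) * t ^ 2) ^ 2 := ⟨t * psiH r t, by rw [p2]; ring⟩
    obtain ⟨s, hs⟩ := (Int.pow_dvd_pow_iff two_ne_zero).1 hC2
    refine ⟨|s|, abs_nonneg _, ?_⟩
    rw [abs_mul_abs_self]
    apply mul_left_cancel₀ (pow_ne_zero 2 hC)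
    rw [p2]; linear_combination (-((e : ℤ) * t ^ 2 + C * s)) * hs
  have hs80 : s ≤ 80 := by
    by_contra hlt
    have hbig : 81 * 81 ≤ s * s := mul_le_mul (by omega) (by omega) (by norm_num) hs0
    have hpb : t * psiH r t ≤ 6000 := by
      obtain ⟨hl, hu⟩ := hr
      interval_cases r <;> interval_cases t <;> norm_num [psiH]
    linarith
  rcases small_points r (Finset.mem_Icc.2 (by omega)) t (Finset.mem_Icc.2 (by omega)) with
    h' | h' | h'
  · exact absurd hs (h' s (Finset.mem_Icc.2 ⟨hs0, hs80⟩))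
  · exact Or.inl h'
  · exact Or.inr h'

lemma x_mem_aux {x y : ℚ} (h : y ^ 2 - y = x ^ 3 - x ^ 2) :
    ∀ N : ℕ, hgt x ≤ N → x = 0 ∨ x = 1 := by
  intro N
  induction N generalizing x y with
  | zero =>
    intro hN
    exfalso
    have := x.den_pos
    unfold hgt at hN; omega
  | succ N ih =>
    intro hN
    obtain ⟨e, A, B, C, he0', hde, hC, h1, h2, h3⟩ := exists_integral_coords h
    set a := x.num with hadef
    set d := x.den with hddef
    -- the half point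
    set q : ℚ := (B + 2 * C) / (2 * C) with hqdef
    have hCq : (C : ℚ) ≠ 0 := by exact_mod_cast hC
    have g1 : (A : ℚ) * A - 4 * (B * C) - 4 * (C * C) = 4 * a := by exact_mod_cast h1
    have g2 : 2 * ((A : ℚ) * B) - 2 * (C * C) = -2 * ((e : ℚ) * e) := by exact_mod_cast h2
    have g3 : 2 * ((A : ℚ) * C) + B * B + 4 * (B * C) + 4 * (C * C) = 0 := by exact_mod_cast h3
    have hB' : (B : ℚ) = 2 * C * (q - 1) := by rw [hqdef]; field_simp; ring
    have hA' : (A : ℚ) = -2 * C * q ^ 2 := by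
      apply mul_left_cancel₀ (mul_ne_zero two_ne_zero hCq)
      rw [hB'] at g3; linear_combination g3
    have hpsi : (C : ℚ) ^ 2 * (4 * q ^ 3 - 4 * q ^ 2 + 1) = (e : ℚ) ^ 2 := by
      rw [hA', hB'] at g2; linear_combination (-1 / 2 : ℚ) * g2
    have hphi : (C : ℚ) ^ 2 * (q ^ 4 - 2 * q + 1) = (a : ℚ) := by
      rw [hA', hB'] at g1; linear_combination (1 / 4 : ℚ) * g1
    have hx : x = (a : ℚ) / (e : ℚ) ^ 2 := by
      rw [show ((e : ℚ) ^ 2) = (d : ℚ) by exact_mod_cast hde.symm]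
      exact (Rat.num_div_den x).symm
    have hsq : ((e : ℚ) / C) ^ 2 = 4 * q ^ 3 - 4 * q ^ 2 + 1 := by
      field_simp; linear_combination -hpsi
    have hcurve : ((1 + (e : ℚ) / C) / 2) ^ 2 - (1 + (e : ℚ) / C) / 2 = q ^ 3 - q ^ 2 := by
      linear_combination (1 / 4 : ℚ) * hsq
    -- back to x from q
    have hback : q = 0 ∨ q = 1 → x = 0 ∨ x = 1 := by
      rintro (h' | h')
      · right; rw [hx, div_eq_one_iff_eq (by positivity)]
        rw [h'] at hpsi hphi; linarith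
      · left; rw [hx]; rw [h'] at hphi
        have : (a : ℚ) = 0 := by linarith
        rw [this, zero_div]
    apply hback
    -- height comparison
    set r := q.num with hrdef
    set t := (q.den : ℤ) with htdef
    have ht0 : 0 < t := by rw [htdef]; exact_mod_cast q.den_pos
    have htq : (t : ℚ) ≠ 0 := by exact_mod_cast ht0.ne'
    have hqrt : q = (r : ℚ) / t := by rw [htdef, hrdef]; exact_mod_cast (Rat.num_div_den q).symm
    have p1 : C ^ 2 * phiH r t = a * t ^ 4 := by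
      have : (C : ℚ) ^ 2 * (phiH r t : ℤ) = a * (t : ℚ) ^ 4 := by
        rw [← hphi, hqrt]; simp only [phiH]; push_cast; field_simp
      exact_mod_cast this
    have p2 : C ^ 2 * (t * psiH r t) = (e : ℤ) ^ 2 * t ^ 4 := by
      have : (C : ℚ) ^ 2 * ((t : ℚ) * (psiH r t : ℤ)) = (e : ℚ) ^ 2 * (t : ℚ) ^ 4 := by
        rw [← hpsi, hqrt]; simp only [psiH]; push_cast; field_simp
      exact_mod_cast this
    by_cases hsmall : hgt q ≤ 5
    · have hr5 : r.natAbs ≤ 5 ∧ q.den ≤ 5 := by unfold hgt at hsmall; omega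
      rcases small_case hC (by omega) ht0 (by omega) p2 with h' | h'
      · left; rw [hqrt, h']; simp
      · right; rw [hqrt, h', div_self htq]
    · apply ih hcurve
      have := hgt_lt hC hadef.symm hde hrdef htdef p1 p2 (by omega)
      omega

/-! ## The rational points -/

/-- The rational points of `X₁(11)`. -/
theorem x1_eleven_rational {x y : ℚ} (h : y ^ 2 - y = x ^ 3 - x ^ 2) : x = 0 ∨ x = 1 :=
  x_mem_aux h (hgt x) le_rfl

end Fermat.Agent.Mazur.Eleven
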