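import Fermat.Agent.Mazur.Eleven.Descent

/-!
# Rational points of `X₀(11)`

Rational points of `W² = 4X³ - 4X² - 40X - 79` (the modular curve `X₀(11)`), through the
5-isogeny to `X₁(11)`.
-/

set_option autoImplicit false

namespace Fermat.Agent.Mazur.Eleven

lemma quartic_five_mod_two : ∀ a d : ZMod 2,
    a ^ 4 + 15 * a ^ 3 * d + 120 * a ^ 2 * d ^ 2 + 200 * a * d ^ 3 + 155 * d ^ 4 = 0 →
      a = 0 ∧ d = 0 := by
  decide

lemma quartic_sixteen_mod_two : ∀ a d : ZMod 2,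
    a ^ 4 + a ^ 3 * d + 11 * a ^ 2 * d ^ 2 + 41 * a * d ^ 3 + 101 * d ^ 4 = 0 →
      a = 0 ∧ d = 0 := by
  decide

lemma quartic_ne_zero {k3 k2 k1 k0 : ℤ}
    (hmod : ∀ a d : ZMod 2, a ^ 4 + (k3 : ZMod 2) * a ^ 3 * d + (k2 : ZMod 2) * a ^ 2 * d ^ 2
      + (k1 : ZMod 2) * a * d ^ 3 + (k0 : ZMod 2) * d ^ 4 = 0 → a = 0 ∧ d = 0) (t : ℚ) :
    t ^ 4 + k3 * t ^ 3 + k2 * t ^ 2 + k1 * t + k0 ≠ 0 := by
  intro h
  have hd : (t.den : ℚ) ≠ 0 := by exact_mod_cast t.den_nz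
  have hq : t.num ^ 4 + k3 * t.num ^ 3 * t.den + k2 * t.num ^ 2 * (t.den : ℤ) ^ 2
      + k1 * t.num * (t.den : ℤ) ^ 3 + k0 * (t.den : ℤ) ^ 4 = 0 := by
    have : (t.num : ℚ) ^ 4 + k3 * (t.num : ℚ) ^ 3 * t.den + k2 * (t.num : ℚ) ^ 2 * (t.den : ℚ) ^ 2
        + k1 * (t.num : ℚ) * (t.den : ℚ) ^ 3 + k0 * (t.den : ℚ) ^ 4 = 0 := by
      rw [← Rat.num_div_den t] at h
      field_simp at h
      linear_combination h
    exact_mod_cast this
  have h2 := congrArg (fun z : ℤ => (z : ZMod 2)) hq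
  push_cast at h2
  obtain ⟨h1, h3⟩ := hmod _ _ h2
  have hcop : IsCoprime t.num (t.den : ℤ) := t.isCoprime_num_den
  have := hcop.isUnit_of_dvd' ((ZMod.intCast_zmod_eq_zero_iff_dvd _ 2).1 h1)
    ((ZMod.intCast_zmod_eq_zero_iff_dvd _ 2).1 (by push_cast; exact h3))
  norm_num [Int.isUnit_iff] at this

lemma kernel_ne_zero (X : ℚ) : 5 * X ^ 2 + 5 * X - 29 ≠ 0 := by
  intro h
  have hsq : IsSquare ((605 : ℕ) : ℚ) := ⟨10 * X + 5, by push_cast; linear_combination -20 * h⟩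
  rw [Rat.isSquare_natCast_iff] at hsq
  obtain ⟨r, hr⟩ := hsq
  have : r ≤ 24 := by nlinarith
  interval_cases r <;> omega

/-- The affine rational points of `X₀(11)` have abscissa 5 or 16. -/
theorem x0_eleven_rational {X W : ℚ} (h : W ^ 2 = 4 * X ^ 3 - 4 * X ^ 2 - 40 * X - 79) :
    X = 5 ∨ X = 16 := by
  have hk := kernel_ne_zero X
  set K := 5 * X ^ 2 + 5 * X - 29 with hK
  set N := X ^ 5 + 10 * X ^ 4 + 45 * X ^ 3 - 400 * X ^ 2 - 845 * X - 775 with hN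
  set H := X ^ 6 + 3 * X ^ 5 - 54 * X ^ 4 + 613 * X ^ 3 + 1752 * X ^ 2 + 8585 * X + 6451 with hH
  have hsq : (W * H / K ^ 3) ^ 2 = 4 * (N / K ^ 2) ^ 3 - 4 * (N / K ^ 2) ^ 2 + 1 := by
    field_simp
    rw [h, hK, hN, hH]; ring
  have hcurve : ((1 + W * H / K ^ 3) / 2) ^ 2 - (1 + W * H / K ^ 3) / 2 =
      (N / K ^ 2) ^ 3 - (N / K ^ 2) ^ 2 := by
    linear_combination (1 / 4 : ℚ) * hsq
  rcases x1_eleven_rational hcurve with h0 | h0
  · left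
    rw [div_eq_zero_iff, or_iff_left (pow_ne_zero 2 hk)] at h0
    have : (X - 5) * (X ^ 4 + (15 : ℤ) * X ^ 3 + (120 : ℤ) * X ^ 2 + (200 : ℤ) * X
        + (155 : ℤ)) = 0 := by
      push_cast; rw [hN] at h0; linear_combination h0
    rcases mul_eq_zero.1 this with h1 | h1
    · linarith
    · exact absurd h1 (quartic_ne_zero (by simpa using quartic_five_mod_two) X)
  · right
    rw [div_eq_one_iff_eq (pow_ne_zero 2 hk)] at h0
    have : (X - 16) * (X ^ 4 + (1 : ℤ) * X ^ 3 + (11 : ℤ) * X ^ 2 + (41 : ℤ) * X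
        + (101 : ℤ)) = 0 := by
      push_cast; rw [hN, hK] at h0; linear_combination h0
    rcases mul_eq_zero.1 this with h1 | h1
    · linarith
    · exact absurd h1 (quartic_ne_zero (by simpa using quartic_sixteen_mod_two) X)

end Fermat.Agent.Mazur.Eleven
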