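import Fermat.Agent.Mazur.Small.Five

/-!
# Points of order 11 in Tate normal form

Tate normal form parameters `(r, s)` of a point of order 11, the curve `y² - y = x³ - x²` they
satisfy, and the functions on it which are invariant under replacing the point by its multiples.

See `eleven_xy` and `point_nsmul`.
-/

set_option autoImplicit false

open WeierstrassCurve WeierstrassCurve.Affine WeierstrassCurve.Affine.Point
open Fermat.Agent.Mazur.Small

namespace Fermat.Agent.Mazur.Eleven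

variable {F : Type*} [Field F]

/-! ## The parameters and the invariant functions -/

/-- The parameter `r` of a Tate normal form. -/
def parR (b c : F) : F := b / c

/-- The parameter `s` of a Tate normal form. -/
def parS (b c : F) : F := c / (b / c - 1)

/-- Invariant abscissa, as a function on `y² - y = x³ - x²`. -/
def x0Fun (x : F) : F := x + 2 / (x - 1) + 1 / (x - 1) ^ 2 + 1 / x ^ 2

/-- Derivative of `x0Fun`. -/
def x0Der (x : F) : F := 1 - 2 / (x - 1) ^ 2 - 2 / (x - 1) ^ 3 - 2 / x ^ 3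

/-- Abscissa on `X₁(11)` of a Tate normal form. -/
def oneX (b c : F) : F := (1 - parR b c) / (1 - parS b c)

/-- Abscissa on `X₀(11)` of a Tate normal form. -/
def zeroX (b c : F) : F := x0Fun (oneX b c)

/-- Weighted ordinate on `X₀(11)` of a Tate normal form. -/
def zeroW (b c : F) : F := (2 * (1 - parR b c) - 1) * x0Der (oneX b c)

lemma map_zeroX {L : Type*} [Field L] (f : F →+* L) (b c : F) :
    f (zeroX b c) = zeroX (f b) (f c) := by
  simp [zeroX, x0Fun, oneX, parR, parS, map_ofNat]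

lemma map_zeroW {L : Type*} [Field L] (f : F →+* L) (b c : F) :
    f (zeroW b c) = zeroW (f b) (f c) := by
  simp [zeroW, x0Der, oneX, parR, parS, map_ofNat]

lemma zero_curve {x y : F} (hx : x ≠ 0) (hx1 : x - 1 ≠ 0) (h : y ^ 2 - y = x ^ 3 - x ^ 2) :
    ((2 * y - 1) * x0Der x) ^ 2 =
      4 * x0Fun x ^ 3 - 4 * x0Fun x ^ 2 - 40 * x0Fun x - 79 := by
  have e : (4 * (x ^ 3 - x ^ 2) + 1) * x0Der x ^ 2 =
      4 * x0Fun x ^ 3 - 4 * x0Fun x ^ 2 - 40 * x0Fun x - 79 := by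
    simp only [x0Fun, x0Der]; field_simp; ring
  rw [← e, ← h]; ring

/-- The defining equation of `X₁(11)` in `(r, s)`. -/
def elevenF (r s : F) : F := r ^ 2 - r * s ^ 3 + 3 * r * s ^ 2 - 4 * r * s + s

lemma x0Fun_rot {x y : F} (hx : x ≠ 0) (hy : y ≠ 0) (hx1 : x - 1 ≠ 0) (hxy : y - x ≠ 0)
    (h : y ^ 2 - y = x ^ 3 - x ^ 2) : x0Fun (y / (y - x)) = x0Fun x := by
  have ha : y / (y - x) - 1 = x / (y - x) := by field_simp; ring
  have key : x0Fun (y / (y - x)) - x0Fun x = (y ^ 2 - y - x ^ 3 + x ^ 2) *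
      (x ^ 4 - x ^ 3 * y ^ 2 - 3 * x ^ 3 * y - x ^ 3 + x ^ 2 * y ^ 3 + 3 * x ^ 2 * y ^ 2
        + 3 * x ^ 2 * y - 2 * x * y ^ 3 - 3 * x * y ^ 2 - x * y + y ^ 3 + y ^ 2) /
      (x ^ 2 * y ^ 2 * (x - 1) ^ 2 * (y - x)) := by
    simp only [x0Fun, ha]; field_simp; ring
  rw [show y ^ 2 - y - x ^ 3 + x ^ 2 = 0 by linear_combination h, zero_mul, zero_div] at key
  exact sub_eq_zero.1 key

lemma x0Der_rot {x y : F} (hx : x ≠ 0) (hy : y ≠ 0) (hx1 : x - 1 ≠ 0) (hxy : y - x ≠ 0)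
    (h : y ^ 2 - y = x ^ 3 - x ^ 2) :
    (2 * ((x ^ 2 - x + y) / ((x - y) * (x - 1))) - 1) * x0Der (y / (y - x)) =
      (2 * y - 1) * x0Der x := by
  have hxy' : x - y ≠ 0 := fun h0 => hxy (by linear_combination -h0)
  have ha : y / (y - x) - 1 = x / (y - x) := by field_simp; ring
  have key : (2 * ((x ^ 2 - x + y) / ((x - y) * (x - 1))) - 1) * x0Der (y / (y - x)) -
      (2 * y - 1) * x0Der x = (y ^ 2 - y - x ^ 3 + x ^ 2) *
      (-2 * x ^ 7 + 4 * x ^ 6 * y + 4 * x ^ 6 - 12 * x ^ 5 * y - 2 * x ^ 5 + 2 * x ^ 4 * y ^ 4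
        - 6 * x ^ 4 * y ^ 3 + 10 * x ^ 4 * y ^ 2 + 10 * x ^ 4 * y - 2 * x ^ 3 * y ^ 5
        + 4 * x ^ 3 * y ^ 3 - 14 * x ^ 3 * y ^ 2 - 2 * x ^ 3 * y + 2 * x ^ 2 * y ^ 5
        - 8 * x ^ 2 * y ^ 4 + 8 * x ^ 2 * y ^ 2 + 2 * x * y ^ 5 + 8 * x * y ^ 4 - 4 * x * y ^ 3
        - 2 * x * y ^ 2 - 2 * y ^ 5 - 2 * y ^ 4 + 2 * y ^ 3) /
      (-(x ^ 3 * y ^ 3 * (x - 1) ^ 3 * (y - x))) := by
    simp only [x0Der, ha]; field_simp; ring
  rw [show y ^ 2 - y - x ^ 3 + x ^ 2 = 0 by linear_combination h, zero_mul, zero_div] at key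
  exact sub_eq_zero.1 key

variable {W : WeierstrassCurve.Affine F} [DecidableEq F]

/-! ## The equation of a point of order 11 -/

omit [DecidableEq F] in
/-- With `b = r s (r - 1)` and `c = s (r - 1)` at `P`, the Tate coefficients at `2 P`. -/
private lemma tate_double_params {x₀ y₀ u r s : F} (hu : u ≠ 0) (hr : r ≠ 0) (hr1 : r - 1 ≠ 0)
    (hs : s ≠ 0) (h3 : tateA3 W x₀ y₀ ≠ 0) (e1 : tateA1 W x₀ y₀ = u * (1 - s * (r - 1)))
    (e2 : tateA2 W x₀ y₀ = -(r * s * (r - 1)) * u ^ 2)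
    (e3 : tateA3 W x₀ y₀ = -(r * s * (r - 1)) * u ^ 3) :
    tateA1 W (tateX2 W x₀ y₀) (tateY2 W x₀ y₀) = u * (1 + (r - 1) * (2 + s)) ∧
      tateA2 W (tateX2 W x₀ y₀) (tateY2 W x₀ y₀) = r * (r - 1) * (s - 1) * u ^ 2 ∧
      tateA3 W (tateX2 W x₀ y₀) (tateY2 W x₀ y₀) = r * s ^ 2 * (r - 1) ^ 2 * u ^ 3 := by
  have h3' : tateA1 W x₀ y₀ * tateA2 W x₀ y₀ - tateA3 W x₀ y₀ =
      r * s ^ 2 * (r - 1) ^ 2 * u ^ 3 := by
    rw [e1, e2, e3]; ring
  have h30 : tateA1 W x₀ y₀ * tateA2 W x₀ y₀ - tateA3 W x₀ y₀ ≠ 0 := by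
    rw [h3']
    exact mul_ne_zero (mul_ne_zero (mul_ne_zero hr (pow_ne_zero 2 hs)) (pow_ne_zero 2 hr1))
      (pow_ne_zero 3 hu)
  -- the slope of the tangent at `P`
  have hμ : u * ((r - 1) * (1 + s)) =
      (tateA2 W x₀ y₀ ^ 2 - tateA1 W x₀ y₀ ^ 2 * tateA2 W x₀ y₀ +
      tateA1 W x₀ y₀ * tateA3 W x₀ y₀) /
      (tateA1 W x₀ y₀ * tateA2 W x₀ y₀ - tateA3 W x₀ y₀) := by
    rw [h3', e1, e2, e3]; field_simp; ring
  refine ⟨?_, ?_, ?_⟩
  · rw [tateA1_double W x₀ y₀ h3 h30, ← hμ, e1]; ring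
  · rw [tateA2_double W x₀ y₀ h3 h30 _ hμ, e1, e2]; ring
  · rw [tateA3_double, h3']

/-- If `P` has order `11` the Tate parameters of `P` differ, as `x (4 P) ≠ x P`. -/
private lemma tate_b_ne_c {x₀ y₀ u b c : F} (h : W.Nonsingular x₀ y₀)
    (h11 : (11 : ℕ) • Point.some _ _ h = 0) (h3 : tateA3 W x₀ y₀ ≠ 0) (hu : u ≠ 0) (hb : b ≠ 0)
    (hc : c ≠ 0)
    (h3'0 : tateA1 W x₀ y₀ * tateA2 W x₀ y₀ - tateA3 W x₀ y₀ ≠ 0)
    (e1 : tateA1 W x₀ y₀ = u * (1 - c)) (e2 : tateA2 W x₀ y₀ = -b * u ^ 2)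
    (e3 : tateA3 W x₀ y₀ = -b * u ^ 3) : b ≠ c := by
  have hp : Nat.Prime 11 := by norm_num
  have hP := some_ne_zero h
  obtain ⟨hd, ed⟩ := exists_double h h3
  obtain ⟨hq, eq⟩ := exists_double hd (by rwa [tateA3_double])
  have h3' : tateA1 W x₀ y₀ * tateA2 W x₀ y₀ - tateA3 W x₀ y₀ = b * c * u ^ 3 := by
    rw [e1, e2, e3]; ring
  have hμ : u * (b - c + c ^ 2) / c = (tateA2 W x₀ y₀ ^ 2 - tateA1 W x₀ y₀ ^ 2 * tateA2 W x₀ y₀ +
      tateA1 W x₀ y₀ * tateA3 W x₀ y₀) / (tateA1 W x₀ y₀ * tateA2 W x₀ y₀ - tateA3 W x₀ y₀) := by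
    rw [h3', e1, e2, e3]; field_simp; ring
  intro h0
  have hX : tateX2 W (tateX2 W x₀ y₀) (tateY2 W x₀ y₀) = x₀ := by
    rw [tateX2.eq_1 W (tateX2 W x₀ y₀), tateA2_double W x₀ y₀ h3 h3'0 _ hμ, tateX2, e1, e2, h0]
    field_simp
    ring
  rcases (X_eq_iff (h₁ := hq) (h₂ := h)).1 hX with he | he
  · refine nsmul_ne_zero_of_prime hp hP h11 (k := 3) (by norm_num) ?_
    have h4 : (4 : ℕ) • Point.some _ _ h = Point.some _ _ h := by
      rw [show (4 : ℕ) = 2 * 2 from rfl, mul_nsmul, ed, eq, he]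
    rwa [show (4 : ℕ) = 3 + 1 from rfl, succ_nsmul, add_eq_right] at h4
  · refine nsmul_ne_zero_of_prime hp hP h11 (k := 5) (by norm_num) ?_
    have h4 : (4 : ℕ) • Point.some _ _ h = -Point.some _ _ h := by
      rw [show (4 : ℕ) = 2 * 2 from rfl, mul_nsmul, ed, eq, he]
    rw [show (5 : ℕ) = 4 + 1 from rfl, succ_nsmul, h4, neg_add_cancel]

lemma eleven_rs {x₀ y₀ : F} (h : W.Nonsingular x₀ y₀)
    (h11 : (11 : ℕ) • Point.some _ _ h = 0) :
    ∃ u r s : F, u ≠ 0 ∧ r ≠ 0 ∧ r - 1 ≠ 0 ∧ s ≠ 0 ∧ 1 - s ≠ 0 ∧ s - r ≠ 0 ∧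
      r * s - 2 * r + 1 ≠ 0 ∧ elevenF r s = 0 ∧ tateA3 W x₀ y₀ ≠ 0 ∧
      tateB W x₀ y₀ = r * s * (r - 1) ∧ tateC W x₀ y₀ = s * (r - 1) ∧
      parR (tateB W x₀ y₀) (tateC W x₀ y₀) = r ∧ parS (tateB W x₀ y₀) (tateC W x₀ y₀) = s ∧
      tateA1 W x₀ y₀ = u * (1 - s * (r - 1)) ∧ tateA2 W x₀ y₀ = -(r * s * (r - 1)) * u ^ 2 ∧
      tateA3 W x₀ y₀ = -(r * s * (r - 1)) * u ^ 3 := by
  have hp : Nat.Prime 11 := by norm_num
  have hP := some_ne_zero h
  have h3 := tateA3_ne_zero_of_prime hp (by norm_num) h h11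
  have h2 := tateA2_ne_zero_of_prime hp (by norm_num) h h3 h11
  obtain ⟨hd, ed⟩ := exists_double h h3
  have h11d : (11 : ℕ) • Point.some _ _ hd = 0 := by rw [← ed, smul_comm, h11, smul_zero]
  have h3d := tateA3_ne_zero_of_prime hp (by norm_num) hd h11d
  have h2d := tateA2_ne_zero_of_prime hp (by norm_num) hd h3d h11d
  obtain ⟨hq, eq⟩ := exists_double hd h3d
  have h11q : (11 : ℕ) • Point.some _ _ hq = 0 := by rw [← eq, smul_comm, h11d, smul_zero]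
  have h3q := tateA3_ne_zero_of_prime hp (by norm_num) hq h11q
  obtain ⟨h8, e8⟩ := exists_double hq h3q
  obtain ⟨y', ht, et⟩ := exists_triple h h3 h2
  obtain ⟨u, b, c, hu, hb, hB, hC, e1, e2, e3⟩ := exists_tate_parameters W x₀ y₀ h3 h2
  have h3' : tateA1 W x₀ y₀ * tateA2 W x₀ y₀ - tateA3 W x₀ y₀ = b * c * u ^ 3 := by
    rw [e1, e2, e3]; ring
  have h3'0 : tateA1 W x₀ y₀ * tateA2 W x₀ y₀ - tateA3 W x₀ y₀ ≠ 0 := by
    rw [← tateA3_double]; exact h3d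
  have hc : c ≠ 0 := fun h0 => h3'0 (by rw [h3', h0, mul_zero, zero_mul])
  -- `x(4P) ≠ x(P)`
  have hbc : b ≠ c := tate_b_ne_c h h11 h3 hu hb hc h3'0 e1 e2 e3
  set r := b / c with hr
  have hbr : b = r * c := by rw [hr]; field_simp
  have hr0 : r ≠ 0 := by rw [hr]; exact div_ne_zero hb hc
  have hr1 : r - 1 ≠ 0 := by
    intro h0; apply hbc; rw [hbr, sub_eq_zero.1 h0, one_mul]
  set s := c / (r - 1) with hs
  have hcs : c = s * (r - 1) := by rw [hs]; field_simp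
  have hs0 : s ≠ 0 := by rw [hs]; exact div_ne_zero hc hr1
  have hbs : b = r * s * (r - 1) := by rw [hbr, hcs]; ring
  have hR : parR (tateB W x₀ y₀) (tateC W x₀ y₀) = r := by rw [parR, hB, hC]
  have hS : parS (tateB W x₀ y₀) (tateC W x₀ y₀) = s := by rw [parS, hB, hC]
  clear_value s r
  rw [hcs] at e1
  rw [hbs] at e2 e3
  -- the coefficients at `2 P`
  obtain ⟨f1, f2, f3⟩ := tate_double_params hu hr0 hr1 hs0 h3 e1 e2 e3
  have hs1 : 1 - s ≠ 0 := by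
    intro h0; apply h2d; rw [f2]; linear_combination (-r * (r - 1) * u ^ 2) * h0
  have g3 : tateA1 W (tateX2 W x₀ y₀) (tateY2 W x₀ y₀) * tateA2 W (tateX2 W x₀ y₀) (tateY2 W x₀ y₀)
      - tateA3 W (tateX2 W x₀ y₀) (tateY2 W x₀ y₀) =
      r * (r - 1) * (r * s - 2 * r + 1) * u ^ 3 := by
    rw [f1, f2, f3]; ring
  have g30 : tateA1 W (tateX2 W x₀ y₀) (tateY2 W x₀ y₀) * tateA2 W (tateX2 W x₀ y₀) (tateY2 W x₀ y₀)
      - tateA3 W (tateX2 W x₀ y₀) (tateY2 W x₀ y₀) ≠ 0 := by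
    rw [← tateA3_double]; exact h3q
  have hD : r * s - 2 * r + 1 ≠ 0 := fun h0 => g30 (by rw [g3, h0]; ring)
  -- the slope of the tangent at `2 P`
  set D := r * s - 2 * r + 1 with hDdef
  set B1 := 1 + (r - 1) * (2 + s) with hB1
  have hμ2 : u * (r * (r - 1) * (s - 1) ^ 2 / D - B1) =
      (tateA2 W (tateX2 W x₀ y₀) (tateY2 W x₀ y₀) ^ 2 -
        tateA1 W (tateX2 W x₀ y₀) (tateY2 W x₀ y₀) ^ 2 *
          tateA2 W (tateX2 W x₀ y₀) (tateY2 W x₀ y₀) +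
        tateA1 W (tateX2 W x₀ y₀) (tateY2 W x₀ y₀) *
          tateA3 W (tateX2 W x₀ y₀) (tateY2 W x₀ y₀)) /
      (tateA1 W (tateX2 W x₀ y₀) (tateY2 W x₀ y₀) * tateA2 W (tateX2 W x₀ y₀) (tateY2 W x₀ y₀)
        - tateA3 W (tateX2 W x₀ y₀) (tateY2 W x₀ y₀)) := by
    rw [g3, f1, f2, f3]; field_simp; rw [hB1, hDdef]; ring
  -- `11 P = 0` gives `x(3 P) = x(8 P)`, which is the equation of `X₁(11)`
  have hneg : Point.some _ _ ht = -Point.some _ _ h8 := by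
    rw [eq_neg_iff_add_eq_zero, ← et, ← e8, ← eq, ← ed, ← mul_nsmul, ← mul_nsmul, ← add_nsmul]
    exact h11
  have hx := (X_eq_iff (h₁ := ht) (h₂ := h8)).2 (Or.inr hneg)
  rw [tateX2.eq_1 W (tateX2 W (tateX2 W x₀ y₀) (tateY2 W x₀ y₀)),
    tateA2_double W _ _ h3d g30 _ hμ2, tateX2.eq_1 W (tateX2 W x₀ y₀), f1, f2, tateX2.eq_1 W x₀,
    e1, e2, e3] at hx
  field_simp at hx
  have hF : elevenF r s = 0 := by
    have : (r - 1) ^ 2 * u ^ 2 * elevenF r s = 0 := by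
      rw [elevenF]; simp only [hB1, hDdef] at hx; linear_combination -hx
    rcases mul_eq_zero.1 this with h0 | h0
    · exact absurd h0 (mul_ne_zero (pow_ne_zero 2 hr1) (pow_ne_zero 2 hu))
    · exact h0
  have hsr : s - r ≠ 0 := by
    intro h0
    have h0' : s = r := by linear_combination h0
    rw [elevenF, h0'] at hF
    exact mul_ne_zero hr0 (pow_ne_zero 3 hr1) (by linear_combination -hF)
  exact ⟨u, r, s, hu, hr0, hr1, hs0, hs1, hsr, hD, hF, h3, by rw [hB, hbs], by rw [hC, hcs], hR,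
    hS, e1, e2, e3⟩

/-! ## The functions of a point -/

/-- Abscissa on `X₀(11)` attached to a point. -/
def pointX : W.Point → F
  | .zero => 0
  | .some x y _ => zeroX (tateB W x y) (tateC W x y)

/-- Weighted ordinate on `X₀(11)` attached to a point. -/
def pointW : W.Point → F
  | .zero => 0
  | .some x y _ => zeroW (tateB W x y) (tateC W x y)

omit [DecidableEq F] in
lemma pointX_some {x y : F} (h : W.Nonsingular x y) :
    pointX (Point.some _ _ h) = zeroX (tateB W x y) (tateC W x y) := rfl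

omit [DecidableEq F] in
lemma pointW_some {x y : F} (h : W.Nonsingular x y) :
    pointW (Point.some _ _ h) = zeroW (tateB W x y) (tateC W x y) := rfl

/-- A point of order 11 gives a point of `X₁(11)`. -/
lemma eleven_xy {x₀ y₀ : F} (h : W.Nonsingular x₀ y₀)
    (h11 : (11 : ℕ) • Point.some _ _ h = 0) :
    ∃ u x y : F, u ≠ 0 ∧ x ≠ 0 ∧ x - 1 ≠ 0 ∧ y ≠ 0 ∧ y - x ≠ 0 ∧ y ^ 2 - y = x ^ 3 - x ^ 2 ∧
      tateA3 W x₀ y₀ ≠ 0 ∧ pointX (Point.some _ _ h) = x0Fun x ∧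
      pointW (Point.some _ _ h) = (2 * y - 1) * x0Der x ∧
      tateA1 W x₀ y₀ = u * (1 - (1 - y / x) * (-y)) ∧
      tateA2 W x₀ y₀ = -((1 - y) * (1 - y / x) * (-y)) * u ^ 2 ∧
      tateA3 W x₀ y₀ = -((1 - y) * (1 - y / x) * (-y)) * u ^ 3 := by
  obtain ⟨u, r, s, hu, hr, hr1, hs, hs1, hsr, -, hF, h3, -, -, hR, hS, e1, e2, e3⟩ :=
    eleven_rs h h11
  have hy : 1 - r ≠ 0 := fun h0 => hr1 (by linear_combination -h0)
  have hxdef : (1 - r) / (1 - s) ≠ 0 := div_ne_zero hy hs1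
  have hy' : -(1 - r) = r - 1 := by ring
  have hyx : 1 - (1 - r) / ((1 - r) / (1 - s)) = s := by field_simp; ring
  refine ⟨u, (1 - r) / (1 - s), 1 - r, hu, hxdef, ?_, hy, ?_, ?_, h3, ?_, ?_, ?_, ?_, ?_⟩
  · rw [div_sub_one hs1]; refine div_ne_zero ?_ hs1
    intro h0; exact hsr (by linear_combination h0)
  · rw [sub_div' hs1]; refine div_ne_zero ?_ hs1
    intro h0; exact mul_ne_zero hy hs (by linear_combination -h0)
  · rw [elevenF] at hF; field_simp; linear_combination (-1 : F) * hF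
  · rw [pointX_some, zeroX, oneX, hR, hS]
  · rw [pointW_some, zeroW, oneX, hR, hS]
  · rw [hyx, hy']; exact e1
  · rw [hyx, hy', sub_sub_cancel]; exact e2
  · rw [hyx, hy', sub_sub_cancel]; exact e3

lemma point_two_nsmul {P : W.Point} (hP : P ≠ 0) (h11 : (11 : ℕ) • P = 0) :
    pointX ((2 : ℕ) • P) = pointX P ∧ pointW ((2 : ℕ) • P) = pointW P := by
  rcases P with _ | ⟨x₀, y₀, h⟩
  · exact absurd rfl hP
  obtain ⟨u, r, s, hu, hr, hr1, hs, hs1, hsr, hD, hF, h3, -, -, hR, hS, e1, e2, e3⟩ :=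
    eleven_rs h h11
  obtain ⟨hd, ed⟩ := exists_double h h3
  have h11d : (11 : ℕ) • Point.some _ _ hd = 0 := by rw [← ed, smul_comm, h11, smul_zero]
  obtain ⟨u', r', s', -, -, hr1', -, -, -, -, -, -, -, -, hR', hS', -, -, -⟩ := eleven_rs hd h11d
  obtain ⟨f1, f2, f3⟩ := tate_double_params hu hr hr1 hs h3 e1 e2 e3
  have fB : tateB W (tateX2 W x₀ y₀) (tateY2 W x₀ y₀) =
      -(r * (s - 1) ^ 3) / ((r - 1) * s ^ 4) := by
    rw [tateB, f2, f3]; field_simp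
  have fC : tateC W (tateX2 W x₀ y₀) (tateY2 W x₀ y₀) =
      -(r * s - 2 * r + 1) / ((r - 1) * s ^ 2) := by
    rw [tateC, f1, f2, f3]; field_simp; ring
  have hR2 : parR (tateB W (tateX2 W x₀ y₀) (tateY2 W x₀ y₀))
      (tateC W (tateX2 W x₀ y₀) (tateY2 W x₀ y₀)) =
          r * (s - 1) ^ 3 / (s ^ 2 * (r * s - 2 * r + 1)) := by
    rw [parR, fB, fC]; field_simp
  have hr2 : r' = (r - 1) * (1 - s) / (s * (s - r)) := by
    rw [← hR', hR2, div_eq_div_iff (mul_ne_zero (pow_ne_zero 2 hs) hD) (mul_ne_zero hs hsr)]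
    rw [elevenF] at hF
    linear_combination (s * (1 - s)) * hF
  have hs2 : s' = (r * s - 2 * r + 1) / ((1 - s) * (s - r)) := by
    have hr' : r' = r * (s - 1) ^ 3 / (s ^ 2 * (r * s - 2 * r + 1)) := hR'.symm.trans hR2
    have hE : r * (s - 1) ^ 3 - s ^ 2 * (r * s - 2 * r + 1) ≠ 0 := by
      intro h0; apply hr1'; rw [hr', sub_eq_zero.1 h0, div_self (mul_ne_zero (pow_ne_zero 2 hs) hD),
        sub_self]
    have hS2 : s' = -(r * s - 2 * r + 1) ^ 2 /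
        ((r - 1) * (r * (s - 1) ^ 3 - s ^ 2 * (r * s - 2 * r + 1))) := by
      rw [← hS', parS]
      change tateC W _ _ / (parR _ _ - 1) = _
      rw [hR2, fC, div_sub_one (mul_ne_zero (pow_ne_zero 2 hs) hD)]
      field_simp
    rw [hS2, div_eq_div_iff (mul_ne_zero hr1 hE) (mul_ne_zero hs1 hsr)]
    rw [elevenF] at hF
    linear_combination (-(r * s - 2 * r + 1)) * hF
  -- the coordinates `x = (1 - r) / (1 - s)`, `y = 1 - r` of the point of `X₁(11)`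
  have hy : 1 - r ≠ 0 := fun h0 => hr1 (by linear_combination -h0)
  have hx : (1 - r) / (1 - s) ≠ 0 := div_ne_zero hy hs1
  have hx1 : (1 - r) / (1 - s) - 1 ≠ 0 := by
    rw [div_sub_one hs1]; refine div_ne_zero ?_ hs1
    intro h0; exact hsr (by linear_combination h0)
  have hxy : (1 - r) - (1 - r) / (1 - s) ≠ 0 := by
    rw [sub_div' hs1]; refine div_ne_zero ?_ hs1
    intro h0; exact mul_ne_zero hy hs (by linear_combination -h0)
  have hC : (1 - r) ^ 2 - (1 - r) = ((1 - r) / (1 - s)) ^ 3 - ((1 - r) / (1 - s)) ^ 2 := by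
    rw [elevenF] at hF; field_simp; linear_combination (-1 : F) * hF
  set x := (1 - r) / (1 - s) with hxdef
  set y := 1 - r with hydef
  have hr_y : r = 1 - y := by rw [hydef]; ring
  have hs_xy : s = 1 - y / x := by rw [hxdef]; field_simp; ring
  have hxy' : x - y ≠ 0 := fun h0 => hxy (by linear_combination -h0)
  -- doubling acts on `(x, y)` as the rotation fixing `x0Fun` and `x0Der`
  have hY : 1 - r' = (x ^ 2 - x + y) / ((x - y) * (x - 1)) := by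
    have : r' = -(x * y) / ((x - y) * (x - 1)) := by
      rw [hr2, div_eq_div_iff (mul_ne_zero hs hsr) (mul_ne_zero hxy' hx1), hr_y, hs_xy]
      field_simp; ring
    rw [this, one_sub_div (mul_ne_zero hxy' hx1)]; congr 1; ring
  have hS1 : 1 - s' = -(x ^ 2 - x + y) / (y * (x - 1)) := by
    have : s' = x * (x + y - 1) / (y * (x - 1)) := by
      rw [hs2, div_eq_div_iff (mul_ne_zero hs1 hsr) (mul_ne_zero hy hx1), hr_y, hs_xy]
      field_simp; ring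
    rw [this, one_sub_div (mul_ne_zero hy hx1)]; congr 1; ring
  have hN : x ^ 2 - x + y ≠ 0 := by
    intro h0; apply hr1'
    rw [h0, zero_div] at hY
    linear_combination -hY
  have hX : (1 - r') / (1 - s') = y / (y - x) := by
    have aux : ∀ A B C : F, A ≠ 0 → A / B / (-A / C) = -C / B := by
      intro A B C hA
      rw [div_div_div_eq, show B * -A = -(A * B) by ring, div_neg, mul_div_mul_left _ _ hA, neg_div]
    rw [hY, hS1, aux _ _ _ hN, div_eq_div_iff (mul_ne_zero hxy' hx1) hxy]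
    ring
  rw [ed, pointX_some, pointX_some, pointW_some, pointW_some, zeroX, zeroX, zeroW, zeroW, oneX,
    oneX, hR', hS', hR, hS, hX, hY]
  exact ⟨x0Fun_rot hx hy hx1 hxy hC, x0Der_rot hx hy hx1 hxy hC⟩

/-- The invariants do not depend on the generator of the cyclic group. -/
lemma point_nsmul {P : W.Point} (h11 : (11 : ℕ) • P = 0) {k : ℕ} (hk : k • P ≠ 0) :
    pointX (k • P) = pointX P ∧ pointW (k • P) = pointW P :=
  Prod.ext_iff.1 <| apply_nsmul_of_primitive_root (f := fun Q : W.Point => (pointX Q, pointW Q))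
    (g := 2) (by norm_num) (by decide)
    (fun _ hQ hQ11 => Prod.ext_iff.2 (point_two_nsmul hQ hQ11)) h11 hk

end Fermat.Agent.Mazur.Eleven
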